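/-
P-SS / SSH-17 GEN (row 930, helper32): the instances needed by the point rows.

* `modelGen_h4S`, `modelGen_h9S` : `H45.ModelGenStatement M q h₀` for the Hauptmoduln of level
  `4` and `9`;
* `ssGen` : the consumer's form `H59.SS.SSGenStatement M q` (`4 ∣ M`, `q ∤ M` prime);
* `adjoin_heckeBetaBar_eq_top` : `Algebra.adjoin (α E₀') {β H} = ⊤` for every nonconstant `H`;
* `adjoin_eq_top_h9S` : the twin of `ssGen` for the Hauptmodul of level `9`.
-/
import Fermat.Agent.H32.SS.ModelGen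
import Fermat.Agent.H59.SS.CrossModel
import Fermat.Agent.H8.SS.Haupt4Field
import Fermat.Agent.H31.SS.Haupt9Field

set_option autoImplicit false
set_option linter.style.haveILetI false
set_option linter.unusedSectionVars false

noncomputable section

namespace Fermat.Agent.H32.SSGen

open Polynomial ModularCurve AlgebraicCurve
open Fermat.Agent.H22.KL

/-- GEN for the Hauptmodul of level `4`. -/
theorem modelGen_h4S (M q : ℕ) [NeZero M] [NeZero q] (hq : q.Prime) (hqM : ¬ q ∣ M) :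
    Fermat.Agent.H45.ModelGenStatement M q (Fermat.Agent.H8.SS.h4S ℚ) :=
  modelGen_of_coeff_neg_one M q hq hqM _
    (by rw [Fermat.Agent.H8.SS.h4S_coeff_neg_one]; exact one_ne_zero)

/-- GEN for the Hauptmodul of level `9`. -/
theorem modelGen_h9S (M q : ℕ) [NeZero M] [NeZero q] (hq : q.Prime) (hqM : ¬ q ∣ M) :
    Fermat.Agent.H45.ModelGenStatement M q (Fermat.Agent.H31.SS.h9S ℚ) :=
  modelGen_of_coeff_neg_one M q hq hqM _
    (by rw [Fermat.Agent.H31.SS.h9S_coeff_neg_one]; exact one_ne_zero)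

/-- `Algebra.adjoin` form of GEN: `E₀ = α(E₀')[β H]` for every nonconstant `H` of level `M`. -/
theorem adjoin_heckeBetaBar_eq_top (K₁ : Type) [Field K₁] [Algebra ℚ K₁]
    [FiniteDimensional ℚ K₁] (M q : ℕ) [NeZero M] [NeZero q] (hq : q.Prime) (hqM : ¬ q ∣ M)
    (H : ModelField K₁ M) (hnc : ∃ n : ℤ, n ≠ 0 ∧ (H : LaurentSeries K₁).coeff n ≠ 0) :
    letI := Fermat.Agent.H59.SS.ssAlgLevel K₁ M q
    Algebra.adjoin (ModelField K₁ M)
      ({heckeBetaBar K₁ M q H} : Set (ModelField K₁ (M * q))) = ⊤ := by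
  letI := Fermat.Agent.H59.SS.ssAlgLevel K₁ M q
  rw [eq_top_iff]
  intro z _
  obtain ⟨p, hp⟩ := exists_eval₂_heckeBetaBar K₁ M q hq hqM H hnc z
  rw [hp]
  exact Polynomial.aeval_mem_adjoin_singleton (ModelField K₁ M) (heckeBetaBar K₁ M q H)

/-- **The consumer's form** (`H59.SS.SSGenStatement`): level `M q`, `4 ∣ M`, `q ∤ M` prime. -/
theorem ssGen (M q : ℕ) [NeZero M] [NeZero q] (h4 : 4 ∣ M) (hq : q.Prime) (hqM : ¬ q ∣ M) :
    Fermat.Agent.H59.SS.SSGenStatement M q := by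
  intro K₁ _ _ _ Hq hHq
  let H : ModelField K₁ M :=
    ⟨Fermat.Agent.H8.SS.h4S K₁, Fermat.Agent.H8.SS.h4S_mem_laurentBaseChange K₁ M h4⟩
  have hβ : Hq = heckeBetaBar K₁ M q H := Subtype.ext (by rw [hHq, coe_heckeBetaBar])
  rw [hβ]
  exact adjoin_heckeBetaBar_eq_top K₁ M q hq hqM H
    ⟨-1, by decide, by
      show (Fermat.Agent.H8.SS.h4S K₁).coeff (-1) ≠ 0
      rw [Fermat.Agent.H8.SS.h4S_coeff_neg_one]; exact one_ne_zero⟩

/-- The twin of `ssGen` for the Hauptmodul of level `9` (`9 ∣ M`, `q ∤ M` prime). -/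
theorem adjoin_eq_top_h9S (M q : ℕ) [NeZero M] [NeZero q] (h9 : 9 ∣ M) (hq : q.Prime)
    (hqM : ¬ q ∣ M) (K₁ : Type) [Field K₁] [Algebra ℚ K₁] [FiniteDimensional ℚ K₁]
    (Hq : ModelField K₁ (M * q))
    (hHq : (Hq : LaurentSeries K₁) = qExpand K₁ q (Fermat.Agent.H31.SS.h9S K₁)) :
    letI := Fermat.Agent.H59.SS.ssAlgLevel K₁ M q
    Algebra.adjoin (ModelField K₁ M) ({Hq} : Set (ModelField K₁ (M * q))) = ⊤ := by
  let H : ModelField K₁ M :=
    ⟨Fermat.Agent.H31.SS.h9S K₁, Fermat.Agent.H31.SS.h9S_mem_laurentBaseChange K₁ M h9⟩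
  have hβ : Hq = heckeBetaBar K₁ M q H := Subtype.ext (by rw [hHq, coe_heckeBetaBar])
  rw [hβ]
  exact adjoin_heckeBetaBar_eq_top K₁ M q hq hqM H
    ⟨-1, by decide, by
      show (Fermat.Agent.H31.SS.h9S K₁).coeff (-1) ≠ 0
      rw [Fermat.Agent.H31.SS.h9S_coeff_neg_one]; exact one_ne_zero⟩

end Fermat.Agent.H32.SSGen

end
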