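/-
P-SS / SSH-17 GEN (row 930, helper32): the abstract primitive element criterion.  Mathlib only.

`E / A` finite separable, `t i : E → Ω` a family of pairwise distinct `A`-embeddings with
`[E : A] ≤ #ι`.  If the value `t i₀ y` of `y : E` is ISOLATED (`t i y = t i₀ y → i = i₀`), then
`E = A(y)`.  (The fibres of `i ↦ t i y` all have the same cardinality `[E : A(y)]`.)
-/
import Mathlib

set_option autoImplicit false
set_option linter.style.haveILetI false

noncomputable section

namespace Fermat.Agent.H32.SSGen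

open IntermediateField Polynomial

/-- Bundled form of the criterion. -/
theorem adjoin_eq_top_of_isolated {A E Ω ι : Type*} [Field A] [Field E] [Field Ω]
    [Algebra A E] [Algebra A Ω] [FiniteDimensional A E] [Algebra.IsSeparable A E]
    [Fintype ι] (hcard : Module.finrank A E ≤ Fintype.card ι)
    (t : ι → (E →ₐ[A] Ω)) (ht : Function.Injective t) (y : E) (i₀ : ι)
    (hy : ∀ i, t i y = t i₀ y → i = i₀) : A⟮y⟯ = ⊤ := by
  classical
  let Ωb := AlgebraicClosure Ω
  let inc : Ω →ₐ[A] Ωb := IsScalarTower.toAlgHom A Ω Ωb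
  have hincinj : Function.Injective inc := (algebraMap Ω Ωb).injective
  let T : ι → (E →ₐ[A] Ωb) := fun i => inc.comp (t i)
  have hT : Function.Injective T := by
    intro i j hij
    apply ht
    ext z
    apply hincinj
    exact congrArg (fun f : E →ₐ[A] Ωb => f z) hij
  have hTbij : Function.Bijective T := by
    rw [Fintype.bijective_iff_injective_and_card]
    refine ⟨hT, le_antisymm (Fintype.card_le_of_injective T hT) ?_⟩
    rw [AlgHom.card A E Ωb]
    exact hcard
  letI algL : Algebra ↥A⟮y⟯ Ωb := ((T i₀).comp (A⟮y⟯).val).toRingHom.toAlgebra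
  have halg : ∀ x : ↥A⟮y⟯, algebraMap ↥A⟮y⟯ Ωb x = T i₀ (x : E) := fun _ => rfl
  haveI : IsScalarTower A ↥A⟮y⟯ Ωb := IsScalarTower.of_algebraMap_eq fun a => by
    rw [halg]
    exact ((T i₀).commutes a).symm
  have key : ∀ φ : E →ₐ[↥A⟮y⟯] Ωb, φ.restrictScalars A = T i₀ := by
    intro φ
    obtain ⟨i, hi⟩ := hTbij.2 (φ.restrictScalars A)
    have h0 : φ y = T i₀ y := φ.commutes (⟨y, mem_adjoin_simple_self A y⟩ : ↥A⟮y⟯)
    have h1 : T i y = T i₀ y := by
      rw [hi]
      exact h0
    have h2 : t i y = t i₀ y := hincinj h1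
    rw [← hi, hy i h2]
  have hsub : Subsingleton (E →ₐ[↥A⟮y⟯] Ωb) := by
    refine ⟨fun φ ψ => ?_⟩
    apply AlgHom.ext
    intro x
    exact congrArg (fun f : E →ₐ[A] Ωb => f x) ((key φ).trans (key ψ).symm)
  have hfr : Module.finrank ↥A⟮y⟯ E = 1 := by
    haveI : Algebra.IsSeparable ↥A⟮y⟯ E := Algebra.isSeparable_tower_top_of_isSeparable A ↥A⟮y⟯ E
    have h1 := AlgHom.card ↥A⟮y⟯ E Ωb
    have h2 : Fintype.card (E →ₐ[↥A⟮y⟯] Ωb) ≤ 1 := Fintype.card_le_one_iff_subsingleton.mpr hsub
    have h3 : 0 < Module.finrank ↥A⟮y⟯ E := Module.finrank_pos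
    omega
  exact finrank_eq_one_iff_eq_top.mp hfr

/-- Every element of `E` is a polynomial in `y` if `A⟮y⟯ = ⊤` and `y` is algebraic. -/
theorem exists_eval₂_of_adjoin_eq_top {A E : Type*} [Field A] [Field E] [Algebra A E]
    [Algebra.IsAlgebraic A E] (y : E) (h : A⟮y⟯ = ⊤) (z : E) :
    ∃ p : A[X], z = p.eval₂ (algebraMap A E) y := by
  have hz : z ∈ A⟮y⟯ := h ▸ mem_top
  have hint : IsIntegral A y := (Algebra.IsAlgebraic.isAlgebraic y).isIntegral
  rw [← IntermediateField.mem_toSubalgebra,
    IntermediateField.adjoin_simple_toSubalgebra_of_isAlgebraic hint.isAlgebraic,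
    Algebra.adjoin_singleton_eq_range_aeval] at hz
  obtain ⟨p, hp⟩ := hz
  exact ⟨p, by rw [← hp]; rfl⟩

/-- Unbundled form: ring homomorphisms `a : A → E` (the extension), `ι₀ : A → Ω` (the base
embedding) and a family `t i : E → Ω` of pairwise distinct ring homomorphisms extending `ι₀`,
with `[E : A] ≤ #ι` finite.  If the value of `y` at `i₀` is isolated, every element of `E` is a
polynomial in `y` with coefficients in `a A`. -/
theorem exists_eval₂_of_isolated {A E Ω ι : Type*} [Field A] [Field E] [Field Ω] [CharZero A]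
    (a : A →+* E) (ι₀ : A →+* Ω) [Fintype ι] (t : ι → (E →+* Ω))
    (hcomm : ∀ i, (t i).comp a = ι₀) (hinj : Function.Injective t)
    (hfin : letI := a.toAlgebra; Module.Finite A E)
    (hdeg : (letI := a.toAlgebra; Module.finrank A E) ≤ Fintype.card ι)
    (y : E) (i₀ : ι) (hy : ∀ i, t i y = t i₀ y → i = i₀) (z : E) :
    ∃ p : A[X], z = p.eval₂ a y := by
  letI := a.toAlgebra
  letI := ι₀.toAlgebra
  haveI : FiniteDimensional A E := hfin
  haveI : Algebra.IsSeparable A E := inferInstance
  let T : ι → (E →ₐ[A] Ω) := fun i =>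
    { (t i) with
      commutes' := fun r => by
        have := congrArg (fun f : A →+* Ω => f r) (hcomm i)
        exact this }
  have hT : Function.Injective T := by
    intro i j hij
    apply hinj
    ext x
    exact congrArg (fun f : E →ₐ[A] Ω => f x) hij
  have htop := adjoin_eq_top_of_isolated hdeg T hT y i₀ hy
  exact exists_eval₂_of_adjoin_eq_top y htop z

end Fermat.Agent.H32.SSGen

end
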