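/-
P-SS / SSH-17 GEN (row 930, helper32): the series input.

A nonconstant Laurent series `h` satisfies `h(t^(q²)) ≠ h(ξ t)` for `q ≥ 2` and every unit `ξ`.
-/
import Fermat.Agent.H27.Igusa.Defs

set_option autoImplicit false
set_option linter.style.haveILetI false

noncomputable section

namespace Fermat.Agent.H32.SSGen

open ModularCurve Fermat.Agent.H27

/-- Coefficientwise maps commute with `t ↦ t^n`. -/
theorem gen_coeffMap_qExpand {R S : Type*} [CommRing R] [CommRing S] (f : R →+* S) (n : ℕ)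
    [NeZero n] (x : LaurentSeries R) : coeffMap f (qExpand R n x) = qExpand S n (coeffMap f x) := by
  ext k
  by_cases hk : (n : ℤ) ∣ k
  · obtain ⟨m, rfl⟩ := hk
    rw [coeffMap_coeff, qExpand_coeff_mul, qExpand_coeff_mul, coeffMap_coeff]
  · rw [coeffMap_coeff, qExpand_coeff_of_not_dvd n _ hk, qExpand_coeff_of_not_dvd n _ hk,
      map_zero]

/-- If `h(t^(q²)) = h(ξ t)` then `h` is constant: all coefficients of index `≠ 0` vanish. -/
theorem coeff_eq_zero_of_qExpand_sq_eq_twist {k : Type*} [Field k] (q : ℕ) [NeZero q]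
    (hq : 2 ≤ q) (ξ : kˣ) (h : LaurentSeries k)
    (he : qExpand k q (qExpand k q h) = twist ξ h) :
    ∀ n : ℤ, n ≠ 0 → h.coeff n = 0 := by
  have key : ∀ (m : ℕ) (n : ℤ), n.natAbs = m → n ≠ 0 → h.coeff n = 0 := by
    intro m
    induction m using Nat.strong_induction_on with
    | _ m ih =>
      intro n hnm hn0
      by_contra hc
      have h1 : (qExpand k q (qExpand k q h)).coeff n ≠ 0 := by
        rw [he, twist_coeff]
        exact mul_ne_zero (Units.ne_zero _) hc
      have hd1 : (q : ℤ) ∣ n := by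
        by_contra hnd
        exact h1 (qExpand_coeff_of_not_dvd q _ hnd)
      obtain ⟨n', rfl⟩ := hd1
      rw [qExpand_coeff_mul] at h1
      have hd2 : (q : ℤ) ∣ n' := by
        by_contra hnd
        exact h1 (qExpand_coeff_of_not_dvd q _ hnd)
      obtain ⟨n'', rfl⟩ := hd2
      rw [qExpand_coeff_mul] at h1
      have hn'' : n'' ≠ 0 := by
        rintro rfl
        exact hn0 (by simp)
      have hlt : n''.natAbs < m := by
        rw [← hnm, Int.natAbs_mul, Int.natAbs_mul, Int.natAbs_natCast]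
        have h0 : 0 < n''.natAbs := Int.natAbs_pos.mpr hn''
        have h2 : 2 * (2 * n''.natAbs) ≤ q * (q * n''.natAbs) :=
          Nat.mul_le_mul hq (Nat.mul_le_mul hq le_rfl)
        omega
      exact h1 (ih _ hlt n'' rfl hn'')
  exact fun n hn => key _ n rfl hn

/-- A nonconstant series `h` satisfies `h(t^(q²)) ≠ h(ξ t)`. -/
theorem qExpand_sq_ne_twist {k : Type*} [Field k] (q : ℕ) [NeZero q] (hq : 2 ≤ q) (ξ : kˣ)
    (h : LaurentSeries k) (hnc : ∃ n : ℤ, n ≠ 0 ∧ h.coeff n ≠ 0) :
    qExpand k q (qExpand k q h) ≠ twist ξ h := by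
  intro he
  obtain ⟨n, hn, hc⟩ := hnc
  exact hc (coeff_eq_zero_of_qExpand_sq_eq_twist q hq ξ h he n hn)

end Fermat.Agent.H32.SSGen

end
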