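/-
P-SS / SSH-17 GEN (row 930, helper32): the model field of level `M q` is generated over the
level `M` field (embedded by `α`) by `β H`, for every nonconstant `H` of level `M`.

Route: `[E₀ : α E₀'] ≤ q + 1` by descent from `ℚ̄` (`H77.es1d_finrankAlong_le`,
`H65.qes_finrankAlong_heckeAlphaBar`); the `q + 1` embeddings `τ_∞, τ_b` of `H42.ESENormSeries`
(over `ℚ̄`, composed with the coefficientwise base change `K₁ → ℚ̄`) are pairwise distinct and
agree on `α E₀'`; the value `τ_∞ (β H) = H(t^(q²))` is different from all `τ_b (β H) = H(ζ^b t)`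
because `H` is not constant.  Hence `β H` is a primitive element
(`adjoin_eq_top_of_isolated`).
-/
import Fermat.Agent.H65.QES.NormSeries
import Fermat.Agent.H42.ESENormSeries
import Fermat.Agent.H77.ES1Deg.Descent
import Fermat.Agent.H93.KL.DescInterfaces
import Fermat.Agent.H32.SS.GenAbstract
import Fermat.Agent.H32.SS.GenSeries

set_option autoImplicit false
set_option linter.style.haveILetI false
set_option linter.unusedSectionVars false

noncomputable section

namespace Fermat.Agent.H32.SSGen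

open Polynomial ModularCurve AlgebraicCurve IntermediateField
open Fermat.Agent.H93.KL Fermat.Agent.H42 Fermat.Agent.H27

/-- Positive degree implies finiteness. -/
theorem gen_finiteAlong_of_pos {K F F' : Type*} [Field K] [Field F] [Field F'] [Algebra K F]
    [Algebra K F'] (φ : F →ₐ[K] F') (h : 0 < finrankAlong K φ) : FiniteAlong K φ := by
  unfold finrankAlong at h
  unfold FiniteAlong
  let _ := algebraAlong φ
  exact Module.finite_of_finrank_pos h

section Core

variable (K₁ : Type) [Field K₁] [Algebra ℚ K₁] (M q : ℕ) [NeZero M] [NeZero q]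

/-- `[E₀ : α E₀'] ≤ q + 1` over every field which embeds into `ℚ̄`. -/
theorem finrankAlong_heckeAlphaBar_le (ι : K₁ →+* QBar) (hq : q.Prime) (hqM : ¬ q ∣ M) :
    FiniteAlong K₁ (heckeAlphaBar K₁ M q) ∧ finrankAlong K₁ (heckeAlphaBar K₁ M q) ≤ q + 1 := by
  have hK : laurentBaseChange K₁ (modularFunctionFieldFull M)
      ≤ laurentBaseChange K₁ (modularFunctionFieldFull (M * q)) := by
    intro x hx
    exact (heckeAlphaBar K₁ M q ⟨x, hx⟩).2
  have hL : laurentBaseChange QBar (modularFunctionFieldFull M)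
      ≤ laurentBaseChange QBar (modularFunctionFieldFull (M * q)) := by
    intro x hx
    exact (heckeAlphaBar QBar M q ⟨x, hx⟩).2
  have hdeg : finrankAlong QBar (IntermediateField.inclusion hL) = q + 1 :=
    Fermat.Agent.H65.qes_finrankAlong_heckeAlphaBar M q hq hqM
  have hfin : FiniteAlong QBar (IntermediateField.inclusion hL) :=
    gen_finiteAlong_of_pos _ (by rw [hdeg]; exact Nat.succ_pos q)
  obtain ⟨h1, h2⟩ := Fermat.Agent.H77.es1d_finrankAlong_le ι
    (modularFunctionFieldFull M) (modularFunctionFieldFull (M * q)) hK hL hfin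
  rw [hdeg] at h2
  exact ⟨h1, h2⟩

/-- Base change commutes with `α`. -/
theorem klBc_heckeAlphaBar (ι : K₁ →+* QBar)
    (f : ↥(laurentBaseChange K₁ (modularFunctionFieldFull M))) :
    klBc ι (modularFunctionFieldFull (M * q)) (heckeAlphaBar K₁ M q f)
      = heckeAlphaBar QBar M q (klBc ι (modularFunctionFieldFull M) f) := by
  apply Subtype.ext
  rw [klBc_coe, coe_heckeAlphaBar, coe_heckeAlphaBar, klBc_coe]

/-- Base change commutes with `β`. -/
theorem klBc_heckeBetaBar (ι : K₁ →+* QBar)
    (f : ↥(laurentBaseChange K₁ (modularFunctionFieldFull M))) :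
    klBc ι (modularFunctionFieldFull (M * q)) (heckeBetaBar K₁ M q f)
      = heckeBetaBar QBar M q (klBc ι (modularFunctionFieldFull M) f) := by
  apply Subtype.ext
  rw [klBc_coe, coe_heckeBetaBar, coe_heckeBetaBar, klBc_coe]
  exact gen_coeffMap_qExpand ι q _

/-- **GEN, core form.**  For a prime `q ∤ M` and a nonconstant `H` of level `M`, every element
of the model field of level `M q` is a polynomial in `β H` with coefficients in `α E₀'`. -/
theorem exists_eval₂_heckeBetaBar [FiniteDimensional ℚ K₁] (hq : q.Prime) (hqM : ¬ q ∣ M)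
    (H : ↥(laurentBaseChange K₁ (modularFunctionFieldFull M)))
    (hnc : ∃ n : ℤ, n ≠ 0 ∧ (H : LaurentSeries K₁).coeff n ≠ 0)
    (z : ↥(laurentBaseChange K₁ (modularFunctionFieldFull (M * q)))) :
    ∃ p : (↥(laurentBaseChange K₁ (modularFunctionFieldFull M)))[X],
      z = p.eval₂ (heckeAlphaBar K₁ M q).toRingHom (heckeBetaBar K₁ M q H) := by
  haveI : Algebra.IsAlgebraic ℚ K₁ := Algebra.IsAlgebraic.of_finite ℚ K₁
  let ι : K₁ →+* QBar := (IsAlgClosed.lift : K₁ →ₐ[ℚ] QBar).toRingHom
  have hιinj : Function.Injective ι := ι.injective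
  have hcop : Nat.Coprime M q := ((Nat.Prime.coprime_iff_not_dvd hq).mpr hqM).symm
  obtain ⟨W, hWα, hWβ⟩ := Fermat.Agent.H41.exists_atkinLehnerBar M q hcop
  haveI : NeZero ((q : ℕ) : QBar) := ⟨Nat.cast_ne_zero.mpr hq.ne_zero⟩
  obtain ⟨ζ₀, hζ₀⟩ := HasEnoughRootsOfUnity.exists_primitiveRoot QBar q
  obtain ⟨ζ, hζ⟩ : ∃ ζ : QBarˣ, IsPrimitiveRoot (ζ : QBar) q :=
    ⟨(hζ₀.isUnit hq.ne_zero).unit, by simpa using hζ₀⟩
  have hζ1 : ζ ^ q = 1 := Units.ext (by simpa using hζ.pow_eq_one)
  -- the family of embeddings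
  let t : Option (Fin q) →
      (↥(laurentBaseChange K₁ (modularFunctionFieldFull (M * q))) →+* LaurentSeries QBar) :=
    fun i => (tauAll W ζ i).comp (klBc ι (modularFunctionFieldFull (M * q)))
  let ι₀ : ↥(laurentBaseChange K₁ (modularFunctionFieldFull M)) →+* LaurentSeries QBar :=
    (iotaBase QBar M q).comp (klBc ι (modularFunctionFieldFull M))
  have hcomm : ∀ i, (t i).comp (heckeAlphaBar K₁ M q).toRingHom = ι₀ := by
    intro i
    refine RingHom.ext fun x => ?_
    show tauAll W ζ i (klBc ι (modularFunctionFieldFull (M * q)) (heckeAlphaBar K₁ M q x))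
      = iotaBase QBar M q (klBc ι (modularFunctionFieldFull M) x)
    rw [klBc_heckeAlphaBar]
    exact congrArg (fun f : ↥(laurentBaseChange QBar (modularFunctionFieldFull M)) →+*
      LaurentSeries QBar => f (klBc ι (modularFunctionFieldFull M) x))
      (tauAll_comp_alpha W hWα ζ hζ1 i)
  have hnone : ∀ f : ↥(laurentBaseChange K₁ (modularFunctionFieldFull M)),
      t none (heckeBetaBar K₁ M q f)
        = qExpand QBar q (qExpand QBar q (coeffMap ι (f : LaurentSeries K₁))) := by
    intro f
    show tauAll W ζ none (klBc ι (modularFunctionFieldFull (M * q)) (heckeBetaBar K₁ M q f)) = _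
    rw [klBc_heckeBetaBar, tauAll_beta W hWβ ζ none]
    rfl
  have hsome : ∀ (b : Fin q) (f : ↥(laurentBaseChange K₁ (modularFunctionFieldFull M))),
      t (some b) (heckeBetaBar K₁ M q f)
        = twist (ζ ^ b.1) (coeffMap ι (f : LaurentSeries K₁)) := by
    intro b f
    show tauAll W ζ (some b)
      (klBc ι (modularFunctionFieldFull (M * q)) (heckeBetaBar K₁ M q f)) = _
    rw [klBc_heckeBetaBar, tauAll_beta W hWβ ζ (some b)]
    rfl
  -- injectivity of the family: values at `β j`
  have hq1 : ¬ ((q : ℤ) ∣ (-1 : ℤ)) := by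
    intro h
    have h1 : (q : ℤ) ∣ 1 := dvd_neg.mp h
    have h2 : q ∣ 1 := by exact_mod_cast h1
    exact hq.one_lt.ne' (Nat.dvd_one.mp h2)
  have hjc : (coeffMap ι ((jFull K₁ M : ↥(laurentBaseChange K₁ (modularFunctionFieldFull M))) :
      LaurentSeries K₁)).coeff (-1 : ℤ) = 1 := by
    rw [coeffMap_coeff, coe_jFull, coeff_jqModC_neg_one, map_one]
  have hvnone : (t none (heckeBetaBar K₁ M q (jFull K₁ M))).coeff (-1 : ℤ) = 0 := by
    rw [hnone]
    exact qExpand_coeff_of_not_dvd q _ hq1
  have hvsome : ∀ b : Fin q, (t (some b) (heckeBetaBar K₁ M q (jFull K₁ M))).coeff (-1 : ℤ)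
      = (((ζ ^ b.1) ^ (-1 : ℤ) : QBarˣ) : QBar) := by
    intro b
    rw [hsome, twist_coeff, hjc, mul_one]
  have hinj : Function.Injective t := by
    intro x y hxy
    have hval := congrArg (fun s : ↥(laurentBaseChange K₁ (modularFunctionFieldFull (M * q))) →+*
      LaurentSeries QBar => (s (heckeBetaBar K₁ M q (jFull K₁ M))).coeff (-1 : ℤ)) hxy
    beta_reduce at hval
    rcases x with _ | b <;> rcases y with _ | b'
    · rfl
    · exfalso
      rw [hvnone, hvsome] at hval
      exact Units.ne_zero _ hval.symm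
    · exfalso
      rw [hvnone, hvsome] at hval
      exact Units.ne_zero _ hval
    · rw [hvsome, hvsome] at hval
      have h1 : (ζ ^ (b : ℕ)) ^ (-1 : ℤ) = (ζ ^ (b' : ℕ)) ^ (-1 : ℤ) := Units.ext hval
      have h2 : ζ ^ (b : ℕ) = ζ ^ (b' : ℕ) := by
        have := congrArg (fun u : QBarˣ => u⁻¹) h1
        simpa using this
      have h2' : (ζ : QBar) ^ (b : ℕ) = (ζ : QBar) ^ (b' : ℕ) := by
        have := congrArg (fun u : QBarˣ => (u : QBar)) h2
        simpa using this
      have h3 : (b : ℕ) = (b' : ℕ) := hζ.pow_inj b.2 b'.2 h2'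
      exact congrArg some (Fin.ext h3)
  -- degree
  obtain ⟨hfin, hdeg⟩ := finrankAlong_heckeAlphaBar_le K₁ M q ι hq hqM
  have hdeg' : finrankAlong K₁ (heckeAlphaBar K₁ M q) ≤ Fintype.card (Option (Fin q)) := by
    rw [Fintype.card_option, Fintype.card_fin]
    exact hdeg
  -- the value at `∞` is isolated
  have hncι : ∃ n : ℤ, n ≠ 0 ∧ (coeffMap ι (H : LaurentSeries K₁)).coeff n ≠ 0 := by
    obtain ⟨n, hn, hc⟩ := hnc
    refine ⟨n, hn, ?_⟩
    rw [coeffMap_coeff]
    intro h0
    exact hc (hιinj (by rw [h0, map_zero]))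
  have hy : ∀ i, t i (heckeBetaBar K₁ M q H) = t none (heckeBetaBar K₁ M q H) → i = none := by
    intro i hi
    rcases i with _ | b
    · rfl
    · exfalso
      rw [hsome, hnone] at hi
      exact qExpand_sq_ne_twist q hq.two_le (ζ ^ b.1) _ hncι hi.symm
  haveI : CharZero K₁ := algebraRat.charZero K₁
  haveI : CharZero ↥(laurentBaseChange K₁ (modularFunctionFieldFull M)) :=
    charZero_of_injective_algebraMap
      (algebraMap K₁ ↥(laurentBaseChange K₁ (modularFunctionFieldFull M))).injective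
  exact exists_eval₂_of_isolated (heckeAlphaBar K₁ M q).toRingHom ι₀ t hcomm hinj hfin hdeg'
    (heckeBetaBar K₁ M q H) none hy z

end Core

end Fermat.Agent.H32.SSGen

end
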