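/-
P-SS / SSH-17 GEN (row 930, helper32): `Fermat.Agent.H45.ModelGenStatement M q h₀` for every
prime `q ∤ M` and every NONCONSTANT `h₀ : LaurentSeries ℚ`.

`modelGen`            : hypothesis `∃ n ≠ 0, h₀.coeff n ≠ 0`;
`modelGen_of_order_neg` : hypothesis `h₀.order < 0`;
`modelGen_of_coeff_neg_one` : hypothesis `h₀.coeff (-1) ≠ 0`;
`modelGen_jq`         : `h₀ = jq`.
-/
import Fermat.Agent.H45.SS.Model2
import Fermat.Agent.H32.SS.GenCore

set_option autoImplicit false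
set_option linter.style.haveILetI false
set_option linter.unusedSectionVars false

noncomputable section

namespace Fermat.Agent.H32.SSGen

open Polynomial ModularCurve AlgebraicCurve
open Fermat.Agent.H22.KL

/-- **SSH-17 GEN.**  `E₀ = α(E₀')(β H)` for every nonconstant `H` of level `M`. -/
theorem modelGen (M q : ℕ) [NeZero M] [NeZero q] (hq : q.Prime) (hqM : ¬ q ∣ M)
    (h₀ : LaurentSeries ℚ) (hnc : ∃ n : ℤ, n ≠ 0 ∧ h₀.coeff n ≠ 0) :
    Fermat.Agent.H45.ModelGenStatement M q h₀ := by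
  intro K₁ _ _ _ H hH z
  have hnc' : ∃ n : ℤ, n ≠ 0 ∧ (H : LaurentSeries K₁).coeff n ≠ 0 := by
    obtain ⟨n, hn, hc⟩ := hnc
    refine ⟨n, hn, ?_⟩
    rw [hH, coeffEmb_coeff]
    intro h0
    exact hc ((algebraMap ℚ K₁).injective (by rw [h0, map_zero]))
  exact exists_eval₂_heckeBetaBar K₁ M q hq hqM H hnc' z

/-- Variant: `h₀` has a pole. -/
theorem modelGen_of_order_neg (M q : ℕ) [NeZero M] [NeZero q] (hq : q.Prime) (hqM : ¬ q ∣ M)
    (h₀ : LaurentSeries ℚ) (hord : h₀.order < 0) :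
    Fermat.Agent.H45.ModelGenStatement M q h₀ := by
  have h0 : h₀ ≠ 0 := by
    rintro rfl
    simp at hord
  exact modelGen M q hq hqM h₀ ⟨h₀.order, hord.ne, fun h => h0 (HahnSeries.coeff_order_eq_zero.mp h)⟩

/-- Variant: the coefficient of `t⁻¹` does not vanish. -/
theorem modelGen_of_coeff_neg_one (M q : ℕ) [NeZero M] [NeZero q] (hq : q.Prime)
    (hqM : ¬ q ∣ M) (h₀ : LaurentSeries ℚ) (hc : h₀.coeff (-1) ≠ 0) :
    Fermat.Agent.H45.ModelGenStatement M q h₀ :=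
  modelGen M q hq hqM h₀ ⟨-1, by decide, hc⟩

/-- Variant: every coefficient of nonzero index. -/
theorem modelGen_of_coeff (M q : ℕ) [NeZero M] [NeZero q] (hq : q.Prime)
    (hqM : ¬ q ∣ M) (h₀ : LaurentSeries ℚ) (n : ℤ) (hn : n ≠ 0) (hc : h₀.coeff n ≠ 0) :
    Fermat.Agent.H45.ModelGenStatement M q h₀ :=
  modelGen M q hq hqM h₀ ⟨n, hn, hc⟩

/-- The case `h₀ = jq`. -/
theorem modelGen_jq (M q : ℕ) [NeZero M] [NeZero q] (hq : q.Prime) (hqM : ¬ q ∣ M) :
    Fermat.Agent.H45.ModelGenStatement M q jq :=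
  modelGen_of_coeff_neg_one M q hq hqM jq (by rw [coeff_jq_neg_one]; exact one_ne_zero)

end Fermat.Agent.H32.SSGen

end
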